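import Mathlib
import Fermat.Agent.S54.FrobLift

set_option autoImplicit false
set_option linter.style.haveILetI false

open scoped Pointwise

namespace Fermat.Agent.S13.H54

noncomputable section

/-- `ℚ̄`. -/
abbrev Qb : Type := AlgebraicClosure ℚ

/-- The absolute Galois group of `ℚ`. -/
abbrev G : Type := Qb ≃ₐ[ℚ] Qb

/-- The ring of all algebraic integers. -/
abbrev Zb : Type := integralClosure ℤ Qb

/-- **Lifting into inertia.**  Let `K` be a closed normal subgroup of `Gal(ℚ̄/ℚ)`, `Q` a prime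
of `ℤ̄`, and `g` an element acting trivially modulo `Q` on the `K`-invariant algebraic integers.
Then some `K`-translate of `g` acts trivially on `ℤ̄ / Q` (hence stabilises `Q`). -/
theorem exists_mul_mem_inertia (K : Subgroup G) [hKn : K.Normal] (hK : IsClosed (K : Set G))
    (Q : Ideal Zb) [Q.IsPrime] (g : G)
    (hg : ∀ b : Zb, (∀ k ∈ K, k • b = b) → g • b - b ∈ Q) :
    ∃ k ∈ K, ∀ b : Zb, (k * g) • b - b ∈ Q := by
  haveI := Fermat.Agent.S54.isGalois_algebraicClosure_rat
  haveI : Algebra.IsAlgebraic ℚ Qb := AlgebraicClosure.isAlgebraic ℚ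
  letI : TopologicalSpace Zb := ⊥
  haveI : DiscreteTopology Zb := ⟨rfl⟩
  haveI := Fermat.Agent.S54.continuousSMul_integralClosure
  haveI : CompactSpace K := isCompact_iff_compactSpace.mp hK.isCompact
  haveI : TotallyDisconnectedSpace K := Subtype.totallyDisconnectedSpace
  haveI : ContinuousSMul K Zb := inferInstance
  let A' : Subalgebra ℤ Zb := FixedPoints.subalgebra ℤ Zb K
  have hA' : ∀ b : Zb, b ∈ A' ↔ ∀ k ∈ K, k • b = b := by
    intro b
    constructor
    · intro hb k hk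
      exact hb ⟨k, hk⟩
    · intro hb k
      exact hb k.1 k.2
  haveI : SMulCommClass K A' Zb := by
    refine ⟨fun k a b => ?_⟩
    show k • ((a : Zb) * b) = (a : Zb) * (k • b)
    rw [smul_mul', a.2 k]
  haveI : Algebra.IsInvariant A' Zb K := ⟨fun b hb => ⟨⟨b, hb⟩, rfl⟩⟩
  -- invariants are preserved by `G` (normality)
  have hinv : ∀ (h : G) (b : Zb), (∀ k ∈ K, k • b = b) → ∀ k ∈ K, k • (h • b) = h • b := by
    intro h b hb k hk
    have h1 : h⁻¹ * k * h ∈ K := by
      have := hKn.conj_mem k hk h⁻¹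
      simpa using this
    have h2 := hb _ h1
    calc k • (h • b) = h • ((h⁻¹ * k * h) • b) := by
          simp [mul_smul]
      _ = h • b := by rw [h2]
  -- (a) `g • Q` and `Q` have the same contraction to the invariants
  have hunder : (g • Q).under A' = Q.under A' := by
    ext a
    rw [Ideal.mem_comap, Ideal.mem_comap]
    show (a : Zb) ∈ g • Q ↔ (a : Zb) ∈ Q
    rw [Ideal.mem_pointwise_smul_iff_inv_smul_mem]
    have ha : ∀ k ∈ K, k • (g⁻¹ • (a : Zb)) = g⁻¹ • (a : Zb) :=
      hinv g⁻¹ a ((hA' a).mp a.2)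
    have h1 := hg (g⁻¹ • (a : Zb)) ha
    rw [smul_inv_smul] at h1
    constructor
    · intro h
      have := Q.add_mem h1 h
      simpa using this
    · intro h
      have := Q.sub_mem h h1
      simpa using this
  -- (b) transitivity of `K` on the primes over a prime of the invariants
  obtain ⟨k1, hk1⟩ := Algebra.IsInvariant.exists_smul_of_under_eq_of_profinite
    (A := A') (G := K) (g • Q) Q hunder
  set g1 : G := (k1 : G) * g with hg1
  have hstab' : ∀ b : Zb, b ∈ Q ↔ g1⁻¹ • b ∈ Q := by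
    intro b
    conv_lhs => rw [hk1]
    rw [Ideal.mem_pointwise_smul_iff_inv_smul_mem, Ideal.mem_pointwise_smul_iff_inv_smul_mem]
    have : g⁻¹ • (k1⁻¹ • b) = g1⁻¹ • b := by
      rw [hg1, mul_inv_rev, mul_smul]
      rfl
    rw [this]
  have hstab : Q = Q.map (MulSemiringAction.toRingEquiv G Zb g1) := by
    ext b
    rw [hstab' b]
    have : Q.map (MulSemiringAction.toRingEquiv G Zb g1) = g1 • Q := rfl
    rw [this, Ideal.mem_pointwise_smul_iff_inv_smul_mem]
  -- the automorphism of `ℤ̄ / Q` induced by `g1`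
  let e : (Zb ⧸ Q) ≃+* (Zb ⧸ Q) :=
    Ideal.quotientEquiv Q Q (MulSemiringAction.toRingEquiv G Zb g1) hstab
  have he : ∀ b : Zb, e (Ideal.Quotient.mk Q b) = Ideal.Quotient.mk Q (g1 • b) := fun b => rfl
  let φ' : (Zb ⧸ Q) ≃ₐ[A' ⧸ Q.under A'] (Zb ⧸ Q) := AlgEquiv.ofRingEquiv (f := e) (by
    intro x
    obtain ⟨a, rfl⟩ := Ideal.Quotient.mk_surjective x
    rw [Ideal.Quotient.algebraMap_mk_of_liesOver]
    show e (Ideal.Quotient.mk Q (a : Zb)) = Ideal.Quotient.mk Q (a : Zb)
    rw [he, Ideal.Quotient.eq]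
    have ha : ∀ k ∈ K, k • (a : Zb) = a := (hA' a).mp a.2
    have h1 : g1 • (a : Zb) = g • (a : Zb) := by
      rw [hg1, mul_smul]
      exact hinv g a ha k1 k1.2
    rw [h1]
    exact hg a ha)
  obtain ⟨k2, hk2⟩ := Ideal.Quotient.stabilizerHom_surjective_of_profinite
    (G := K) (Q.under A') Q φ'
  have hk2' : ∀ b : Zb,
      Ideal.Quotient.mk Q ((((k2 : K) : G)) • b) = Ideal.Quotient.mk Q (g1 • b) := by
    intro b
    have h1 : (Ideal.Quotient.stabilizerHom Q (Q.under A') K k2) (Ideal.Quotient.mk Q b) =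
        φ' (Ideal.Quotient.mk Q b) := by rw [hk2]
    rw [Ideal.Quotient.stabilizerHom_apply] at h1
    exact h1
  have hmem : (k1 : G) * (g * (((k2 : K) : G))⁻¹ * g⁻¹) ∈ K :=
    K.mul_mem k1.2 (hKn.conj_mem _ (K.inv_mem (k2 : K).2) g)
  have hprod : (k1 : G) * (g * (((k2 : K) : G))⁻¹ * g⁻¹) * g = g1 * (((k2 : K) : G))⁻¹ := by
    rw [hg1]; group
  refine ⟨_, hmem, ?_⟩
  intro b
  rw [hprod, mul_smul, ← Ideal.Quotient.eq, ← hk2']
  congr 1
  exact smul_inv_smul (((k2 : K) : G)) b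

end

end Fermat.Agent.S13.H54
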