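import Fermat.Agent.S13.H54.Inertia

set_option autoImplicit false
set_option linter.style.haveILetI false

open scoped Pointwise NumberField

namespace Fermat.Agent.S13.H54

/-- A ramified prime of a Galois number field has a nontrivial inertia element. -/
theorem exists_inertia_ne_one {F : Type*} [Field F] [NumberField F] [IsGalois ℚ F]
    (P : Ideal (𝓞 F)) [P.IsPrime] (h : ¬ Algebra.IsUnramifiedAt ℤ P) :
    ∃ τ : F ≃ₐ[ℚ] F, τ ≠ 1 ∧ ∀ x : 𝓞 F, τ • x - x ∈ P := by
  have hcard := Ideal.card_inertia_eq_ramificationIdxIn (G := Gal(F/ℚ)) (P.under ℤ) P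
  rw [Ideal.ramificationIdxIn_eq_ramificationIdx (P.under ℤ) P Gal(F/ℚ)] at hcard
  have hne : P.ramificationIdx ℤ ≠ 1 := fun h1 => h (Ideal.ramificationIdx_eq_one_iff.mp h1)
  rw [← hcard] at hne
  have hnt : (Ideal.inertia Gal(F/ℚ) P) ≠ ⊥ := by
    intro hbot
    apply hne
    rw [hbot]
    simp
  obtain ⟨⟨τ, hτ⟩, hτ1⟩ := (Subgroup.ne_bot_iff_exists_ne_one).mp hnt
  refine ⟨τ, fun h1 => hτ1 (Subtype.ext h1), fun x => ?_⟩
  exact hτ x

/-- **Minkowski for normal open subgroups of `Gal(ℚ̄/ℚ)`**: a normal subgroup containing the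
pointwise stabiliser of a finite set and, for every prime `q`, the inertia subgroup of one
valuation subring over `q`, is the whole group. -/
theorem eq_top_of_inertia_le (K : Subgroup G) [hKn : K.Normal]
    (hopen : ∃ s : Finset Qb, ∀ σ : G, (∀ a ∈ s, σ a = a) → σ ∈ K)
    (hI : ∀ q : ℕ, q.Prime →
      ∃ A : ValuationSubring Qb, A.LiesOverPrime q ∧ A.inertiaSubgroupIn ℚ ≤ K) :
    K = ⊤ := by
  haveI := Fermat.Agent.S54.isGalois_algebraicClosure_rat
  haveI : Algebra.IsAlgebraic ℚ Qb := AlgebraicClosure.isAlgebraic ℚ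
  -- `K` is open, hence closed
  obtain ⟨s, hs⟩ := hopen
  let E : IntermediateField ℚ Qb := IntermediateField.adjoin ℚ (s : Set Qb)
  haveI : FiniteDimensional ℚ E :=
    IntermediateField.finiteDimensional_adjoin (fun x _ => Algebra.IsIntegral.isIntegral x)
  have hEK : E.fixingSubgroup ≤ K := by
    intro σ hσ
    refine hs σ fun a ha => ?_
    exact (IntermediateField.mem_fixingSubgroup_iff E σ).mp hσ a
      (IntermediateField.subset_adjoin ℚ _ ha)
  have hKopen : IsOpen (K : Set G) :=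
    Subgroup.isOpen_mono hEK E.fixingSubgroup_isOpen
  have hKclosed : IsClosed (K : Set G) := Subgroup.isClosed_of_isOpen K hKopen
  -- the fixed field of `K`
  let F : IntermediateField ℚ Qb := IntermediateField.fixedField K
  have hFK : F.fixingSubgroup = K :=
    InfiniteGalois.fixingSubgroup_fixedField ⟨K, hKclosed⟩
  haveI hFfin : FiniteDimensional ℚ F := by
    rw [← InfiniteGalois.isOpen_iff_finite]
    show IsOpen (F.fixingSubgroup : Set G)
    rw [hFK]
    exact hKopen
  haveI hFgal : IsGalois ℚ F := by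
    have hn : F.fixingSubgroup.Normal := by rw [hFK]; exact hKn
    exact (InfiniteGalois.normal_iff_isGalois F).mp hn
  haveI : NumberField F := ⟨⟩
  by_contra hne
  have hrank : 1 < Module.finrank ℚ F := by
    by_contra hle
    have h1 : Module.finrank ℚ F = 1 := by
      have : 0 < Module.finrank ℚ F := Module.finrank_pos
      omega
    have hbot : F = ⊥ := IntermediateField.finrank_eq_one_iff.mp h1
    apply hne
    rw [← hFK, hbot]
    exact IntermediateField.fixingSubgroup_bot
  obtain ⟨p, hp, hram⟩ := NumberField.exists_not_isUnramifiedAt_int_of_isGalois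
    (K := F) (𝒪 := 𝓞 F) hrank
  obtain ⟨A, hA, hIA⟩ := hI p hp
  haveI hQprime := Fermat.Agent.S54.primeBelow_isPrime A
  -- the inclusion of the integers of `F` into all algebraic integers
  let ι : 𝓞 F →+* Zb :=
    RingHom.codRestrict ((algebraMap F Qb).comp (algebraMap (𝓞 F) F)) (integralClosure ℤ Qb)
      (fun x => map_isIntegral_int (algebraMap F Qb) x.isIntegral_coe)
  have hι : ∀ x : 𝓞 F, ((ι x : Zb) : Qb) = ((x : F) : Qb) := fun x => rfl
  let P : Ideal (𝓞 F) := (Fermat.Agent.S54.primeBelow A).comap ι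
  haveI hPprime : P.IsPrime := Ideal.comap_isPrime ι _
  have hpP : ((p : ℕ) : 𝓞 F) ∈ P := by
    show ι (p : 𝓞 F) ∈ Fermat.Agent.S54.primeBelow A
    rw [Fermat.Agent.S54.mem_primeBelow, map_natCast]
    exact hA
  obtain ⟨τ, hτ1, hτ⟩ := exists_inertia_ne_one P (hram P hPprime hpP)
  -- lift `τ` to the absolute Galois group
  haveI : Normal ℚ Qb := IsGalois.to_normal
  haveI : Normal ℚ F := IsGalois.to_normal
  obtain ⟨g, hgτ⟩ := AlgEquiv.restrictNormalHom_surjective (F := ℚ) (K₁ := F) Qb τ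
  have hg : ∀ x : F, g (x : Qb) = ((τ x : F) : Qb) := by
    intro x
    rw [← hgτ]
    exact (AlgEquiv.restrictNormal_commutes g F x).symm
  -- `g` acts trivially modulo `Q` on the `K`-invariant integers
  have hyp : ∀ b : Zb, (∀ k ∈ K, k • b = b) → g • b - b ∈ Fermat.Agent.S54.primeBelow A := by
    intro b hb
    have hbF : (b : Qb) ∈ F := by
      intro k
      exact congrArg Subtype.val (hb k.1 k.2)
    have hbint : IsIntegral ℤ (⟨(b : Qb), hbF⟩ : F) := by
      rw [← isIntegral_algebraMap_iff (FaithfulSMul.algebraMap_injective F Qb)]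
      exact b.2
    let x : 𝓞 F := ⟨⟨(b : Qb), hbF⟩, hbint⟩
    have h1 : g • b - b = ι (τ • x - x) := by
      apply Subtype.ext
      show g (b : Qb) - (b : Qb) = ((ι (τ • x - x) : Zb) : Qb)
      rw [hι]
      have := hg ⟨(b : Qb), hbF⟩
      rw [this]
      rfl
    rw [h1]
    exact hτ x
  obtain ⟨k, hk, hkg⟩ := exists_mul_mem_inertia K hKclosed (Fermat.Agent.S54.primeBelow A) g hyp
  have hkgI : k * g ∈ A.inertiaSubgroupIn ℚ :=
    mem_inertiaSubgroupIn_of_forall p hp A hA (k * g) hkg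
  have hgK : g ∈ K := (K.mul_mem_cancel_left hk).mp (hIA hkgI)
  rw [← hFK] at hgK
  apply hτ1
  ext x
  have h2 : g (x : Qb) = x := (IntermediateField.mem_fixingSubgroup_iff F g).mp hgK x x.2
  rw [← hg x, h2]
  rfl

/-- **Minkowski for characters of `Gal(ℚ̄/ℚ)`**: a homomorphism to any group which factors
through a finite level and is trivial on one inertia subgroup over every prime is trivial. -/
theorem minkowski_character {H : Type*} [Group H] (χ : G →* H)
    (hopen : ∃ s : Finset Qb, ∀ σ : G, (∀ x ∈ s, σ x = x) → χ σ = 1)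
    (hunr : ∀ q : ℕ, q.Prime →
      ∃ A : ValuationSubring Qb, A.LiesOverPrime q ∧ ∀ σ ∈ A.inertiaSubgroupIn ℚ, χ σ = 1) :
    ∀ σ, χ σ = 1 := by
  have h : χ.ker = ⊤ := by
    refine eq_top_of_inertia_le χ.ker ?_ ?_
    · obtain ⟨s, hs⟩ := hopen
      exact ⟨s, fun σ hσ => MonoidHom.mem_ker.mpr (hs σ hσ)⟩
    · intro q hq
      obtain ⟨A, hA, hAχ⟩ := hunr q hq
      exact ⟨A, hA, fun σ hσ => MonoidHom.mem_ker.mpr (hAχ σ hσ)⟩
  intro σ
  have : σ ∈ χ.ker := by rw [h]; trivial
  exact MonoidHom.mem_ker.mp this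

/-- Subgroup form with membership conclusion. -/
theorem mem_of_inertia_le (K : Subgroup G) (hKn : K.Normal)
    (hopen : ∃ s : Finset Qb, ∀ σ : G, (∀ a ∈ s, σ a = a) → σ ∈ K)
    (hI : ∀ q : ℕ, q.Prime →
      ∃ A : ValuationSubring Qb, A.LiesOverPrime q ∧ A.inertiaSubgroupIn ℚ ≤ K) (σ : G) :
    σ ∈ K := by
  haveI := hKn
  rw [eq_top_of_inertia_le K hopen hI]
  trivial

end Fermat.Agent.S13.H54
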